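import Fermat.Agent.MazurP3.Cube

/-!
# Vanishing of the slopes for odd `p`
-/

set_option autoImplicit false
set_option linter.unusedSectionVars false
set_option linter.style.haveILetI false
set_option linter.unusedVariables false
set_option synthInstance.maxHeartbeats 400000

noncomputable section

namespace Fermat.Agent.MazurP3

open ModularCurve Fermat.Agent.GoodRed Fermat.Agent.Models Fermat.Agent.ModFun
open Fermat.Agent.Curves Fermat.Agent.AnJac AlgebraicCurve IsLocalRing Fermat.Agent.SSMod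
open Fermat.Agent.HeckeQ Fermat.Agent.GalRep Fermat.Agent.Mono Fermat.Agent.MazurP Polynomial
open Fermat.Agent.GenusX0 (je)
open scoped Pointwise

local notation "ℒ" => LaurentSeries

section Abs

variable {k κ : Type*} [Field k] [Field κ] {B : Res k κ} {F : Type*} [Field F] [Algebra k F]
  {𝓕 : Type*} [Field 𝓕] [Algebra κ 𝓕] {C : Bool → Comp B F 𝓕}
  [IsAlgClosed k] [IsAlgClosed κ] [IsFunctionField k F] [IsFunctionField κ 𝓕]

variable {t : F} {q : ℕ} {a b : F} {j : 𝓕} {R : Subfield F}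
    {φ : 𝓕 ≃+* 𝓕} {g d : F} {q₀ : k}

/-- **Slopes** of an inertia-invariant Kummer function. -/
theorem exists_slope_mul (h : Cross C t q a b j) (hl : CrossLift C t q j R φ g d q₀) {n : ℕ}
    (hn : n ≠ 0) {u : F} (hu0 : u ≠ 0) (hu : ∀ P : Place k F, (n : ℤ) ∣ P.ord u)
    (hval : ∀ b : k, b ≠ 0 → (∀ (σ : F ≃+* F) (σ₀ : k ≃+* k) (s : Place k F ≃ Place k F),
          Inertial C σ σ₀ s → Inertial C σ.symm σ₀.symm s.symm → σ t = t →
          (∃ f : F, σ u / u = f ^ n) → B.r (σ₀ b / b) = 1) →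
        ∀ m : ℤ, B.r (b ^ n * q₀ ^ m) ≠ 0 → (n : ℤ) ∣ m) {e : ℤ}
    (he : ∀ 𝔭 ∈ nodes C t, e ∣ 𝔭.ord ((C true).r g)) :
    ∃ lam : ℤ, ∀ 𝔭 ∈ nodes C t,
      e * (n : ℤ) ∣ 12 * so (C true) 𝔭 u - lam * 𝔭.ord ((C true).r g) := by
  by_cases hne : (nodes C t).Nonempty
  swap
  · exact ⟨0, fun 𝔭 h𝔭 => absurd ⟨𝔭, h𝔭⟩ hne⟩
  obtain ⟨𝔭₀, h𝔭₀⟩ := hne
  have hdat : ∀ 𝔭 ∈ nodes C t, ∃ (M : Ideal (chart C t)) (𝔮 : Place κ 𝓕) (Y : F) (m : ℕ), 0 < m ∧
      (m : ℤ) * 𝔭.ord ((C true).r g) = 12 ∧ IsNode C t M true false 𝔭 𝔮 Y (q₀ ^ m) := by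
    rintro 𝔭 ⟨M, 𝔮, h1, h2⟩
    obtain ⟨Y, m, hm0, h3, h4⟩ := CrossLift.exists_isNode h hl h1 h2
    exact ⟨M, 𝔮, Y, m, hm0, h3, h4⟩
  obtain ⟨M₀, 𝔮₀, Y₀, m₀, hm₀, hmo₀, hN₀⟩ := hdat 𝔭₀ h𝔭₀
  refine ⟨m₀ * so (C true) 𝔭₀ u, fun 𝔭 h𝔭 => ?_⟩
  set lam : ℤ := m₀ * so (C true) 𝔭₀ u with hlam
  obtain ⟨M, 𝔮, Y, m, hm, hmo, hNd⟩ := hdat 𝔭 h𝔭
  obtain ⟨b, hb0, hb1, hb2⟩ := monodromy_pair h.rank h.commens h.incomp h.good h.surj hNd hN₀ hn
    hu0 hu
  have h3 := hval b hb0 hb1 (m * (-so (C false) 𝔮 u) - m₀ * (-so (C false) 𝔮₀ u)) (by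
    convert hb2 using 2
    rw [zpow_sub₀ hl.q_ne, zpow_mul, zpow_mul, zpow_natCast, zpow_natCast, mul_div_assoc])
  have h4 := so_add_dvd h.rank h.commens h.incomp h.good h.surj hNd hn hu0 hu
  have h5 := so_add_dvd h.rank h.commens h.incomp h.good h.surj hN₀ hn hu0 hu
  have h6 : (n : ℤ) ∣ m * so (C true) 𝔭 u - lam := by
    have e1 : m * so (C true) 𝔭 u - lam = (m : ℤ) * (so (C true) 𝔭 u + so (C false) 𝔮 u) -
        m₀ * (so (C true) 𝔭₀ u + so (C false) 𝔮₀ u) +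
        (m * (-so (C false) 𝔮 u) - m₀ * (-so (C false) 𝔮₀ u)) := by rw [hlam]; ring
    rw [e1]
    exact dvd_add (dvd_sub (h4.mul_left _) (h5.mul_left _)) h3
  have e2 : 12 * so (C true) 𝔭 u - lam * 𝔭.ord ((C true).r g) =
      𝔭.ord ((C true).r g) * (m * so (C true) 𝔭 u - lam) := by
    rw [← hmo]
    ring
  rw [e2]
  exact mul_dvd_mul (he 𝔭 h𝔭) h6

end Abs

section General

variable {K κ : Type*} [Field K] [Field κ] {A : ValuationSubring K} {π : A →+* κ}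
  {q M : ℕ} [NeZero M] [IsLocalHom π] [hq : Fact q.Prime] [CharP κ q]
  [IsAlgClosed K] [IsAlgClosed κ] [CharZero K] [NeZero q]

attribute [-instance] DivisionRing.toRatAlgebra

variable [IsFunctionField K (modularFunctionFieldFullC K (q * M))]
  [IsFunctionField κ (modularFunctionFieldFullC κ M)]

set_option maxHeartbeats 1000000 in
/-- **Non-Eisenstein slopes vanish** (any residue characteristic; `p` may be equal to `q`). -/
theorem slope_zero_three [Algebra ℚ K] [Algebra.IsAlgebraic ℚ K] [Algebra.IsAlgebraic ℤ K]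
    (hπ : Function.Surjective π) (ι : K →+* ℂ) (hqM : Nat.Coprime q M)
    (hE : modularFunctionFieldFullC κ M = resField q hπ (q * M))
    (hA : A.LiesOverPrime q) (hr : GoodRed.RankOne π) (h : JLift π M)
    {r : ℕ} [NeZero r] [HasPrim A r] [HasPrim K r] [HasPrim κ r] (hrp : r.Prime)
    (hrM : ¬ r ∣ q * M) (h3M : nuThree M = 0)
    {u f x : modularFunctionFieldFullC K (q * M)} (hu : u ≠ 0) (hf : f ≠ 0) {a : ℕ}
    (hx : (x : ℒ K) = hM r (u : ℒ K)) (hT : x = u ^ a * f ^ 3)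
    (ha : ¬ (3 : ℤ) ∣ (r + 1 : ℤ) - a)
    (hdiv : ∀ P : Place K (modularFunctionFieldFullC K (q * M)), ((3 : ℕ) : ℤ) ∣ P.ord u)
    (hlam : ∃ lam : ℤ, ∀ 𝔭 ∈ nodes (two hπ ι hqM _ hE) (h.coord hqM).t, (9 : ℤ) ∣
      12 * so (two hπ ι hqM _ hE true) 𝔭 u -
        lam * 𝔭.ord ((two hπ ι hqM _ hE true).r (al ι hqM (uM K q M))))
    (i : Bool) (𝔭 : Place κ (modularFunctionFieldFullC κ M)) :
    ((3 : ℕ) : ℤ) ∣ so (two hπ ι hqM _ hE i) 𝔭 u := by
  obtain ⟨L, hunr, hL⟩ := exists_K0 hq.out hA π hπ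
  have hc := cross (hπ := hπ) ι hqM hE hA hr h
  have hl := crossLift (hπ := hπ) ι hqM hE hA hr h hunr hL
  have hrq : ¬ r ∣ q := fun h => hrM (h.mul_right M)
  have hrM' : ¬ r ∣ M := fun h => hrM (h.mul_left q)
  have hcop : Nat.Coprime r q := (Nat.Prime.coprime_iff_not_dvd hrp).2 hrq
  have hrκ : (r : κ) ≠ 0 := by
    rw [Ne, CharP.cast_eq_zero_iff κ q]
    intro h1
    exact hrq ((Nat.prime_dvd_prime_iff_eq hq.out hrp).mp h1 ▸ dvd_refl _)
  have hMκ : (M : κ) ≠ 0 := cast_ne_zero_of_coprime (q := q) hqM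
  have hp0 : (3 : ℕ) ≠ 0 := by norm_num
  set C := two hπ ι hqM _ hE with hC
  obtain ⟨lam, hlam⟩ := hlam
  refine dvd_all hc hl hp0 hu hdiv ?_ i 𝔭
  clear 𝔭
  intro 𝔭 h𝔭
  -- the function `g`
  obtain ⟨g, hgs, hg0, ⟨hg1, hg2⟩, -⟩ := exists_deltaR (hπ := hπ) (ι := ι) (hqM := hqM) hE
  have hgr : (C true).r (al ι hqM (uM K q M)) = g := hg2
  rw [hgr] at hlam
  -- residues
  obtain ⟨c, hc0, hcr⟩ := (C true).exists_scale u hu
  set cu := algebraMap K (modularFunctionFieldFullC K (q * M)) c * u with hcu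
  set ub := (C true).r cu with hub
  have hLRu : LR π (cu : ℒ K) (ub : ℒ κ) := two_true_spec ι hqM hE (Res.mem_of_r_ne_zero hcr)
  have hLR2 := LR_hM (r := r) hrp hrκ hLRu
  have hmemG : hM r (ub : ℒ κ) ∈ modularFunctionFieldFullC κ M :=
    hM_mem_κ π hπ hrp hrM' hrκ hMκ ub.2
  set G : modularFunctionFieldFullC κ M := ⟨hM r (ub : ℒ κ), hmemG⟩ with hG
  have hG0 : G ≠ 0 := by
    intro h0
    have h1 := congrArg (Subtype.val : modularFunctionFieldFullC κ M → ℒ κ) h0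
    refine hM_ne_zero r ?_ h1
    intro h2
    exact hcr (Subtype.ext h2)
  have hxr : (C true).r (algebraMap K _ (c ^ (r + 1)) * x) = G := by
    refine (two_true_r ι hqM hE (y := G) ?_).2
    have e : ((algebraMap K (modularFunctionFieldFullC K (q * M)) (c ^ (r + 1)) * x :
        modularFunctionFieldFullC K (q * M)) : ℒ K) = hM r (cu : ℒ K) := by
      have e1 : (cu : ℒ K) = HahnSeries.C c * (u : ℒ K) := by
        rw [hcu, MulMemClass.coe_mul, ModFun.C_eq_algebraMap]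
        rfl
      rw [e1, hM_mul, hM_C, MulMemClass.coe_mul, hx, ModFun.C_eq_algebraMap]
      rfl
    rw [e]
    exact hLR2
  have hsoG : ∀ 𝔮 : Place κ (modularFunctionFieldFullC κ M),
      𝔮.ord G = a * so (C true) 𝔮 u + 3 * so (C true) 𝔮 f := by
    intro 𝔮
    have h1 := so_eq (C true) 𝔮 (x := x) (c := c ^ (r + 1)) (by rw [hxr]; exact hG0)
    rw [hxr] at h1
    rw [← h1, hT, so_mul (C true) 𝔮 (pow_ne_zero _ hu) (pow_ne_zero _ hf), so_pow, so_pow]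
    norm_num
  have hsou : ∀ 𝔮 : Place κ (modularFunctionFieldFullC κ M), 𝔮.ord ub = so (C true) 𝔮 u :=
    fun 𝔮 => (so_eq (C true) 𝔮 hcr).symm
  have hub0 : ub ≠ 0 := hcr
  -- the exponent
  obtain ⟨L', hL'⟩ : ∃ L' : ℕ, (3 : ℤ) ∣ L' + lam := by
    refine ⟨((-lam) % 3).toNat, ?_⟩
    rw [Int.toNat_of_nonneg (Int.emod_nonneg _ (by norm_num))]
    omega
  set v : modularFunctionFieldFullC κ M := ub ^ 12 * g ^ L' with hv
  have hv0 : v ≠ 0 := mul_ne_zero (pow_ne_zero _ hub0) (pow_ne_zero _ hg0)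
  set w : modularFunctionFieldFullC κ M := G ^ 12 * (g ^ (r + 1)) ^ L' with hw
  have hwv : (w : ℒ κ) = hM r (v : ℒ κ) := by
    rw [hw, hv]
    simp only [MulMemClass.coe_mul, SubmonoidClass.coe_pow]
    rw [hM_mul, hM_pow, hM_pow, hgs, hM_delta hrp hcop, hG]
  have hordv : ∀ 𝔮 : Place κ (modularFunctionFieldFullC κ M), 𝔮.ord v =
      12 * so (C true) 𝔮 u + L' * 𝔮.ord g := by
    intro 𝔮
    rw [hv, 𝔮.ord_mul (pow_ne_zero _ hub0) (pow_ne_zero _ hg0), ord_pow, ord_pow, hsou]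
    norm_num
  have hnc : ∀ 𝔮 : Place κ (modularFunctionFieldFullC κ M), je κ M ∈ 𝔮.toValuationSubring →
      (9 : ℤ) ∣ 𝔮.ord v := by
    intro 𝔮 hj
    have ht : (C true).r (h.coord hqM).t ∈ 𝔮.toValuationSubring := by
      rw [hc.r_t]
      exact pow_mem hj _
    rw [hordv]
    rcases node_or_smooth hc hl hp0 hu hdiv ht with h1 | ⟨h1, h2⟩
    · have h3 := hlam 𝔮 h1
      have e : 12 * so (C true) 𝔮 u + L' * 𝔮.ord g =
          (12 * so (C true) 𝔮 u - lam * 𝔮.ord g) + (L' + lam) * 𝔮.ord g := by ring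
      rw [e]
      refine dvd_add h3 ?_
      have h4 := three_dvd_g (hπ := hπ) ι hqM hE h h3M 𝔮 hj
      rw [hgr] at h4
      exact mul_dvd_mul hL' h4
    · rw [hgr] at h1
      rw [h1, mul_zero, add_zero]
      obtain ⟨m, hm⟩ := h2
      rw [hm]
      push_cast
      exact ⟨4 * m, by ring⟩
  have hj𝔭 : je κ M ∈ 𝔭.toValuationSubring := by
    obtain ⟨M', 𝔮, h1, -⟩ := h𝔭
    have h2 := h1.1
    rw [hc.r_t] at h2
    exact mem_of_pow_mem' _ (by omega) h2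
  have h1 := dvd_ord_hM π hπ hr hrp hrM' hrκ hMκ hv0 hwv hnc 𝔭 hj𝔭
  have h2 := hnc 𝔭 hj𝔭
  rw [hordv] at h2
  have hg1' : g ^ (r + 1) ≠ 0 := pow_ne_zero _ hg0
  rw [hw, 𝔭.ord_mul (pow_ne_zero _ hG0) (pow_ne_zero _ hg1'), ord_pow, ord_pow, ord_pow,
    hsoG] at h1
  push_cast at h1
  have h3 : (9 : ℤ) ∣ ((r + 1 : ℤ) - a) * (L' * 𝔭.ord g) := by
    have e : ((r + 1 : ℤ) - a) * (L' * 𝔭.ord g) =
        (12 * (a * so (C true) 𝔭 u + 3 * so (C true) 𝔭 f) + L' * ((r + 1) * 𝔭.ord g)) -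
          a * (12 * so (C true) 𝔭 u + L' * 𝔭.ord g) - 9 * (4 * so (C true) 𝔭 f) := by ring
    rw [e]
    exact dvd_sub (dvd_sub h1 (h2.mul_left _)) (dvd_mul_right _ _)
  have h4 : (9 : ℤ) ∣ L' * 𝔭.ord g := by
    have hc9 : IsCoprime (9 : ℤ) ((r + 1 : ℤ) - a) := by
      have h30 : IsCoprime (3 : ℤ) ((r + 1 : ℤ) - a) :=
        (Int.prime_three.coprime_iff_not_dvd).2 ha
      have := h30.pow_left (m := 2)
      norm_num at this
      exact this
    exact hc9.dvd_of_dvd_mul_left h3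
  have h5 : (9 : ℤ) ∣ 12 * so (C true) 𝔭 u := (dvd_add_left h4).mp h2
  push_cast
  omega

set_option maxHeartbeats 1000000 in
/-- **Non-Eisenstein slopes vanish** (tame case). -/
theorem slope_zero_odd [Algebra ℚ K] [Algebra.IsAlgebraic ℚ K] [Algebra.IsAlgebraic ℤ K]
    (hπ : Function.Surjective π) (ι : K →+* ℂ) (hqM : Nat.Coprime q M)
    (hE : modularFunctionFieldFullC κ M = resField q hπ (q * M))
    (hA : A.LiesOverPrime q) (hr : GoodRed.RankOne π) (h : JLift π M)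
    {r : ℕ} [NeZero r] [HasPrim A r] [HasPrim K r] [HasPrim κ r] (hrp : r.Prime)
    (hrM : ¬ r ∣ q * M) {p : ℕ} (hp : p.Prime) (hp2 : p ≠ 2) (h3M : p ≠ 3 ∨ nuThree M = 0)
    (hpκ : (p : κ) ≠ 0)
    {u f x : modularFunctionFieldFullC K (q * M)} (hu : u ≠ 0) (hf : f ≠ 0) {a : ℕ}
    (hx : (x : ℒ K) = hM r (u : ℒ K)) (hT : x = u ^ a * f ^ p)
    (ha : ¬ (p : ℤ) ∣ (r + 1 : ℤ) - a)
    (hdiv : ∀ P : Place K (modularFunctionFieldFullC K (q * M)), (p : ℤ) ∣ P.ord u)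
    (hval : ∀ b : K, b ≠ 0 → (∀ τ : K ≃+* K, ActsAt π τ (RingEquiv.refl κ) →
          (∃ f, galF (q * M) τ u / u = f ^ p) → (baseRes π hπ).r (τ b / b) = 1) →
        ∀ m : ℤ, (baseRes π hπ).r (b ^ p * (q : K) ^ m) ≠ 0 → (p : ℤ) ∣ m)
    (i : Bool) (𝔭 : Place κ (modularFunctionFieldFullC κ M)) :
    (p : ℤ) ∣ so (two hπ ι hqM _ hE i) 𝔭 u := by
  obtain ⟨L, hunr, hL⟩ := exists_K0 hq.out hA π hπ
  have hc := cross (hπ := hπ) ι hqM hE hA hr h
  have hl := crossLift (hπ := hπ) ι hqM hE hA hr h hunr hL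
  have hval' : ∀ b : K, b ≠ 0 → (∀ (σ : modularFunctionFieldFullC K (q * M) ≃+*
      modularFunctionFieldFullC K (q * M)) (σ₀ : K ≃+* K)
      (s : Place K (modularFunctionFieldFullC K (q * M)) ≃
        Place K (modularFunctionFieldFullC K (q * M))),
          Inertial (two hπ ι hqM _ hE) σ σ₀ s →
          Inertial (two hπ ι hqM _ hE) σ.symm σ₀.symm s.symm →
          σ (h.coord hqM).t = (h.coord hqM).t →
          (∃ f : modularFunctionFieldFullC K (q * M), σ u / u = f ^ p) →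
          (baseRes π hπ).r (σ₀ b / b) = 1) →
        ∀ m : ℤ, (baseRes π hπ).r (b ^ p * (q : K) ^ m) ≠ 0 → (p : ℤ) ∣ m := by
    intro b hb hb1
    refine hval b hb fun τ hτ hf => ?_
    refine hb1 (galF (q * M) τ) τ (placeE (q * M) τ) (inertial (hπ := hπ) ι hqM hE hA hτ) ?_
      (galF_t hqM h τ) hf
    have := inertial (hπ := hπ) ι hqM hE hA hτ.symm
    rw [placeE_symm] at this
    exact this
  by_cases hp3 : p = 3
  · subst hp3
    have hM0 : nuThree M = 0 := h3M.resolve_left (fun h => h rfl)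
    refine slope_zero_three hπ ι hqM hE hA hr h hrp hrM hM0 hu hf hx hT (by exact_mod_cast ha)
      hdiv ?_ i 𝔭
    obtain ⟨lam, hlam⟩ := exists_slope_mul hc hl hp.ne_zero hu hdiv hval' (e := 3) (by
      rintro 𝔮 ⟨M', 𝔯, h1, -⟩
      refine three_dvd_g (hπ := hπ) ι hqM hE h hM0 𝔮 ?_
      have h2 := h1.1
      rw [hc.r_t] at h2
      exact mem_of_pow_mem' _ (by omega) h2)
    refine ⟨lam, fun 𝔮 h𝔮 => ?_⟩
    have := hlam 𝔮 h𝔮
    norm_num at this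
    exact this
  · have hp5 : 5 ≤ p := by
      by_contra hcon
      push Not at hcon
      have := hp.two_le
      interval_cases p
      · exact hp2 rfl
      · exact hp3 rfl
      · exact absurd hp (by decide)
    exact slope_zero_of hπ ι hqM hE hA hr h hrp hrM hp hp5 hu hf hx hT ha hdiv
      (exists_slope hc hl hp.ne_zero hu hdiv hval') i 𝔭

end General

end Fermat.Agent.MazurP3
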