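import Fermat.Agent.MazurP3.ESer
import Fermat.Agent.MazurP.SlopeN
import Fermat.Agent.Carayol.Theta
import Fermat.Agent.SSMod.Unip

/-!
# Divisibility by three of orders at nodes
-/

set_option autoImplicit false
set_option linter.unusedSectionVars false
set_option linter.style.haveILetI false
set_option linter.unusedVariables false
set_option synthInstance.maxHeartbeats 400000

noncomputable section

namespace Fermat.Agent.MazurP3

open ModularCurve Fermat.Agent.GoodRed Fermat.Agent.Models Fermat.Agent.ModFun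
open Fermat.Agent.Curves Fermat.Agent.AnJac AlgebraicCurve IsLocalRing Fermat.Agent.SSMod
open Fermat.Agent.HeckeQ Fermat.Agent.GalRep Fermat.Agent.Mono Fermat.Agent.MazurP
open Fermat.Agent.GenusX0 (je transcendental_je)

local notation "ℒ" => LaurentSeries

theorem nuThree_eq_zero_of_prime {M r : ℕ} (hr : r.Prime) (hr3 : r % 3 = 2) (hrM : r ∣ M) :
    nuThree M = 0 := by
  rw [nuThree, Nat.card_eq_zero]
  left
  constructor
  rintro ⟨x, hx⟩
  haveI := Fact.mk hr
  set y : ZMod r := ZMod.castHom hrM (ZMod r) x with hy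
  have h1 : y ^ 2 + y + 1 = 0 := by
    have := congrArg (ZMod.castHom hrM (ZMod r)) hx
    rw [map_add, map_add, map_pow, map_one, map_zero] at this
    exact this
  have h3 : y ^ 3 = 1 := by linear_combination (y - 1) * h1
  have hy0 : y ≠ 0 := by
    intro h0
    rw [h0] at h1
    simp at h1
  have h4 : y ^ (r - 1) = 1 := ZMod.pow_card_sub_one_eq_one hy0
  have h5 : y ^ Nat.gcd 3 (r - 1) = 1 := by
    rw [pow_gcd_eq_one]
    exact ⟨h3, h4⟩
  have h6 : Nat.gcd 3 (r - 1) = 1 := by
    rw [← Nat.coprime_iff_gcd_eq_one, Nat.Prime.coprime_iff_not_dvd Nat.prime_three]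
    omega
  rw [h6, pow_one] at h5
  rw [h5] at h1
  have h7 : ((3 : ℕ) : ZMod r) = 0 := by
    push_cast
    linear_combination h1
  rw [ZMod.natCast_eq_zero_iff] at h7
  have h8 := (Nat.prime_dvd_prime_iff_eq hr Nat.prime_three).mp h7
  rw [h8] at hr3
  norm_num at hr3

section General

variable {K κ : Type*} [Field K] [Field κ] {A : ValuationSubring K} {π : A →+* κ}
  {q M : ℕ} [NeZero M] [IsLocalHom π] [hq : Fact q.Prime] [CharP κ q]
  [IsAlgClosed K] [IsAlgClosed κ] [CharZero K] [NeZero q]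

attribute [-instance] DivisionRing.toRatAlgebra

/-- the order of `j` at the places above `j = 0` of the special fibre -/
theorem three_dvd_je (hπ : Function.Surjective π) (ι : K →+* ℂ) (hNκ : (M : κ) ≠ 0)
    (h : JLift π M) (h3 : nuThree M = 0)
    [IsFunctionField κ (modularFunctionFieldFullC κ M)]
    (Q : Place κ (modularFunctionFieldFullC κ M)) (hQ : je κ M ∈ Q.toValuationSubring) :
    (3 : ℤ) ∣ Q.ord (je κ M) := by
  classical
  have hNK : (M : K) ≠ 0 := by exact_mod_cast NeZero.ne M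
  haveI := isFunctionField_fullC K M hNK
  have hC : Chart (modGauss π M hπ hNK hNκ) (je K M) (je κ M) := modChart π M hπ hNK hNκ
  have hG : GoodChart (modGauss π M hπ hNK hNκ) (je K M) (je κ M) :=
    { hC with
      hπ := hπ
      lift := fun f hf => by
        obtain ⟨x, hx, hxf⟩ := h.lift f hf
        exact ⟨x, hx, (modGauss_R π M).2 hxf⟩ }
  have hj0 : je K M ≠ 0 := fun h0 => transcendental_je (k := K) (N := M) (h0 ▸ isAlgebraic_zero)
  rw [hG.ord_red hQ hC.R hC.ne_zero]
  refine Finset.dvd_sum fun P hP => ?_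
  have h1 := (Finset.mem_filter.1 hP).2.1
  rcases eq_or_lt_of_le ((mem_iff_ord P hj0).1 h1) with h2 | h2
  · rw [← h2]
    exact dvd_zero _
  · rw [Carayol.ord_je_eq_three ι h3 P h2]

/-- `q⁴ E₄(q)E₄²/Δ` as a function of level `qM` -/
def yM (K : Type*) [Field K] [IsAlgClosed K] [CharZero K] (q M : ℕ) [NeZero M]
    [hq : Fact q.Prime] [NeZero q] : modularFunctionFieldFullC K (q * M) :=
  ⟨eSer q K, by
    have hq0 : ((q : ℕ) : K) ≠ 0 := by exact_mod_cast hq.out.ne_zero
    obtain ⟨z, hz⟩ := exists_prim_unit K q hq0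
    refine eSer_mem q z hz _ (jqModC_mem_full K (q * M)) ?_
    rw [Jd_eq]
    exact (jB K q M).2⟩

theorem yM_cube : yM K q M ^ 3 = jB K q M * jA K q M ^ 2 * uM K q M := by
  apply Subtype.ext
  rw [SubmonoidClass.coe_pow, MulMemClass.coe_mul, MulMemClass.coe_mul, SubmonoidClass.coe_pow]
  have h := eSer_cube q (k := K)
  rw [Jd_eq] at h
  exact h

variable [IsFunctionField K (modularFunctionFieldFullC K (q * M))]
  [IsFunctionField κ (modularFunctionFieldFullC κ M)]

/-- the order of the residue of the `Δ`-unit at noncuspidal places -/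
theorem three_dvd_g (hπ : Function.Surjective π) (ι : K →+* ℂ) (hqM : Nat.Coprime q M)
    (hE : modularFunctionFieldFullC κ M = resField q hπ (q * M))
    (h : JLift π M) (h3 : nuThree M = 0)
    (𝔭 : Place κ (modularFunctionFieldFullC κ M)) (hj : je κ M ∈ 𝔭.toValuationSubring) :
    (3 : ℤ) ∣ 𝔭.ord ((two hπ ι hqM _ hE true).r (al ι hqM (uM K q M))) := by
  set C := two hπ ι hqM _ hE with hC
  obtain ⟨g, hgs, hg0, ⟨hg1, hg2⟩, -⟩ := exists_deltaR (hπ := hπ) (ι := ι) (hqM := hqM) hE
  have hgr : (C true).r (al ι hqM (uM K q M)) = g := hg2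
  have hcube : al ι hqM (yM K q M) ^ 3 = jA K q M * jB K q M ^ 2 * al ι hqM (uM K q M) := by
    rw [← map_pow, yM_cube, map_mul, map_mul, map_pow, al_jA, al_jB]
  obtain ⟨a, ha, haO, har⟩ := two_true_exists (hπ := hπ) (ι := ι) (hqM := hqM) hE
    (LR_jA (π := π) (q := q) (M := M))
  obtain ⟨b, hb, hbO, hbr⟩ := two_true_exists (hπ := hπ) (ι := ι) (hqM := hqM) hE
    (LR_jB (π := π) (q := q) (M := M))
  have ha' : a = je κ M := Subtype.ext ha
  have hb' : b = je κ M ^ q := Subtype.ext (by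
    rw [hb, SubmonoidClass.coe_pow]
    exact (jqModC_pow_char (κ := κ) (q := q)).symm)
  have hj0 : je κ M ≠ 0 := jq_ne_zero
  have h1 : jA K q M * jB K q M ^ 2 * al ι hqM (uM K q M) ∈ (C true).O :=
    mul_mem (mul_mem haO (pow_mem hbO 2)) hg1
  have h2 : (C true).r (jA K q M * jB K q M ^ 2 * al ι hqM (uM K q M)) =
      je κ M * (je κ M ^ q) ^ 2 * g := by
    rw [Res.r_mul (mul_mem haO (pow_mem hbO 2)) hg1, Res.r_mul haO (pow_mem hbO 2),
      Res.r_pow hbO]
    have e1 : (C true).r (jA K q M) = je κ M := by rw [← ha']; exact har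
    have e2 : (C true).r (jB K q M) = je κ M ^ q := by rw [← hb']; exact hbr
    rw [e1, e2, hgr]
  have hyO : al ι hqM (yM K q M) ∈ (C true).O := by
    refine mem_of_pow_mem' (C true).O (n := 3) (by norm_num) ?_
    rw [hcube]
    exact h1
  have h4 : (C true).r (al ι hqM (yM K q M)) ^ 3 = je κ M * (je κ M ^ q) ^ 2 * g := by
    rw [← h2, ← hcube, Res.r_pow hyO]
  have hne : je κ M * (je κ M ^ q) ^ 2 ≠ 0 := mul_ne_zero hj0 (pow_ne_zero _ (pow_ne_zero _ hj0))
  have h5 := congrArg 𝔭.ord h4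
  rw [𝔭.ord_mul hne hg0, 𝔭.ord_mul hj0 (pow_ne_zero _ (pow_ne_zero _ hj0)), ord_pow, ord_pow,
    ord_pow] at h5
  have h6 := three_dvd_je hπ ι (cast_ne_zero_of_coprime (q := q) hqM) h h3 𝔭 hj
  rw [hgr]
  obtain ⟨m, hm⟩ := h6
  rw [hm] at h5
  push_cast at h5
  exact ⟨𝔭.ord ((C true).r (al ι hqM (yM K q M))) - m - 2 * (q * m), by linarith⟩

end General

end Fermat.Agent.MazurP3
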