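import Fermat.Agent.ModFun.Tower1

/-!
# The function `p⁴ E₄(pz) E₄(z)² / Δ(z)`
-/

set_option autoImplicit false

noncomputable section

open HahnSeries ModularCurve UpperHalfPlane Filter Topology
open scoped PowerSeries.WithPiTopology MatrixGroups ModularForm Manifold

namespace Fermat.Agent.ModFun

/-- the series of `E₄` -/
def EisSer (R : Type*) [CommRing R] : LaurentSeries R :=
  HahnSeries.ofPowerSeries ℤ R (eisenstein4.map (Int.castRingHom R))

theorem coeffMap_EisSer {R S : Type*} [CommRing R] [CommRing S] (f : R →+* S) :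
    coeffMap f (EisSer R) = EisSer S := by
  rw [EisSer, coeffMap_ofPowerSeries,
    ← RingHom.comp_apply (PowerSeries.map f) (PowerSeries.map (Int.castRingHom R)),
    ← PowerSeries.map_comp, RingHom.ext_int (f.comp (Int.castRingHom R)) (Int.castRingHom S)]
  rfl

theorem EisSer_mem : EisSer ℂ ∈ convLaurent := pconv_E4.mem_convLaurent

theorem evf_EisSer (τ : ℍ) :
    evf (EisSer ℂ) (Function.Periodic.qParam 1 τ) = ModularForm.E₄ τ := by
  rw [EisSer, evf_ofPowerSeries]
  exact pev_E4 τ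

theorem EisSer_cube (R : Type*) [CommRing R] : EisSer R ^ 3 = jqModC R * DeltaSer R := by
  have hj : jqModC R = (EisSer R) ^ 3 * DeltaInvSer R := by
    rw [jqModC, jNum, DeltaInvSer, EisSer, map_mul, map_pow, map_mul, map_pow]
    ring
  rw [hj, mul_assoc, mul_comm (DeltaInvSer R), DeltaSer_mul_inv, mul_one]

variable (p : ℕ) [hp : Fact p.Prime]

/-- the family `p⁴ E₄(t^{p²}) E₄(t^p)²/Δ(t^p), E₄(ζ^b t) E₄(t^p)²/Δ(t^p)` -/
def efam (A : Type*) [CommRing A] (u : Aˣ) : Option (ZMod p) → LaurentSeries A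
  | none => HahnSeries.C ((p : A) ^ 4) * qExpand A (p * p) (EisSer A) *
      (qExpand A p (EisSer A) ^ 2 * qExpand A p (DeltaInvSer A))
  | some b => twist (u ^ b.val) (EisSer A) *
      (qExpand A p (EisSer A) ^ 2 * qExpand A p (DeltaInvSer A))

theorem coeffMap_efam {A B : Type*} [CommRing A] [CommRing B] (f : A →+* B) (u : Aˣ)
    (i : Option (ZMod p)) :
    coeffMap f (efam p A u i) = efam p B (Units.map (f : A →* B) u) i := by
  cases i with
  | none => simp only [efam, map_mul, map_pow, coeffMap_qExpand, coeffMap_EisSer,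
      coeffMap_DeltaInvSer, coeffMap_C, map_natCast]
  | some b => simp only [efam, map_mul, coeffMap_twist, coeffMap_qExpand, coeffMap_EisSer,
      coeffMap_DeltaInvSer, map_pow]

theorem twist_efam {A : Type*} [CommRing A] (u : Aˣ) (hu : u ^ p = 1) (i : Option (ZMod p)) :
    twist u (efam p A u i) = efam p A u (tperm p i) := by
  cases i with
  | none =>
    show twist u (HahnSeries.C ((p : A) ^ 4) * qExpand A (p * p) (EisSer A) *
      (qExpand A p (EisSer A) ^ 2 * qExpand A p (DeltaInvSer A))) =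
      HahnSeries.C ((p : A) ^ 4) * qExpand A (p * p) (EisSer A) *
      (qExpand A p (EisSer A) ^ 2 * qExpand A p (DeltaInvSer A))
    rw [map_mul, map_mul, map_mul, twist_C,
      map_pow (twist u) (qExpand A p (EisSer A)) 2, twist_qExpand, twist_qExpand _ _ hu,
      twist_qExpand _ _ hu]
    rw [pow_mul, hu, one_pow]
  | some b =>
    show twist u (twist (u ^ b.val) (EisSer A) *
      (qExpand A p (EisSer A) ^ 2 * qExpand A p (DeltaInvSer A))) =
      twist (u ^ (b + 1).val) (EisSer A) *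
      (qExpand A p (EisSer A) ^ 2 * qExpand A p (DeltaInvSer A))
    rw [map_mul, map_mul, map_pow, twist_twist, pow_val_add_one p u hu, twist_qExpand _ _ hu,
      twist_qExpand _ _ hu]

/-- the weights -/
def wt4 : Option (ZMod p) → ℂ
  | none => (p : ℂ) ^ 4
  | some _ => 1

theorem exists_gamma4 (i : Option (ZMod p)) (τ : ℍ) :
    ∃ γ : SL(2, ℤ), pt p i (ModularGroup.S • τ) = γ • pt p (sperm p i) τ ∧
      wt4 p i * denom γ (pt p (sperm p i) τ) ^ (4 : ℤ) = wt4 p (sperm p i) * (τ : ℂ) ^ (4 : ℤ) := by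
  have hp0 : (p : ℂ) ≠ 0 := by exact_mod_cast hp.out.ne_zero
  have hτ : (τ : ℂ) ≠ 0 := τ.ne_zero
  cases i with
  | none =>
    refine ⟨ModularGroup.S, ?_, ?_⟩
    · apply UpperHalfPlane.ext
      rw [sperm_apply]
      simp only [pt, sfun, ZMod.val_zero]
      rw [coe_pmul, coe_S_smul, coe_S_smul, coe_pdiv, Nat.cast_zero, add_zero, inv_div]
      ring
    · rw [denom_S', sperm_apply]
      simp only [pt, sfun, ZMod.val_zero, wt4, coe_pdiv]
      norm_cast
      field_simp
      push_cast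
      ring
  | some b =>
    by_cases hb : b = 0
    · subst hb
      refine ⟨ModularGroup.S, ?_, ?_⟩
      · apply UpperHalfPlane.ext
        rw [sperm_apply]
        simp only [pt, sfun, ZMod.val_zero, if_true]
        rw [coe_pdiv, coe_S_smul, coe_S_smul, coe_pmul]
        push_cast
        field_simp
        ring
      · rw [denom_S', sperm_apply]
        simp only [pt, sfun, if_true, wt4, coe_pmul]
        rw [mul_zpow]
        norm_cast
        ring
    · set b' : ZMod p := -b⁻¹ with hb'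
      have hbb : ((b.val * b'.val + 1 : ℕ) : ZMod p) = 0 := by
        push_cast
        rw [ZMod.natCast_val, ZMod.natCast_val, ZMod.cast_id, ZMod.cast_id, hb']
        field_simp
        ring
      rw [ZMod.natCast_eq_zero_iff] at hbb
      obtain ⟨m, hm⟩ := hbb
      have hdet : -((b.val : ℤ) * (b'.val : ℤ)) + (m : ℤ) * p = 1 := by
        have : ((b.val * b'.val + 1 : ℕ) : ℤ) = ((p * m : ℕ) : ℤ) := by rw [hm]
        push_cast at this
        linarith
      have hm' : ((b.val : ℂ) * (b'.val : ℂ) + 1) = p * m := by exact_mod_cast hm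
      refine ⟨gmat p b.val b'.val m hdet, ?_, ?_⟩
      · apply UpperHalfPlane.ext
        rw [sperm_apply]
        simp only [pt, sfun, hb, if_false]
        rw [coe_gmat_smul, coe_pdiv, coe_pdiv, coe_S_smul, ← hb']
        push_cast
        have h1 : (p : ℂ) * (((τ : ℂ) + b'.val) / p) - b'.val = τ := by
          field_simp
          ring
        rw [h1]
        field_simp
        linear_combination -hm'
      · rw [denom_gmat, sperm_apply]
        simp only [pt, sfun, hb, if_false, wt4, coe_pdiv, ← hb']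
        congr 2
        push_cast
        field_simp
        ring

theorem efam_mem_conv (i : Option (ZMod p)) : efam p ℂ (uc p) i ∈ convLaurent := by
  have h0 : qExpand ℂ p (EisSer ℂ) ^ 2 * qExpand ℂ p (DeltaInvSer ℂ) ∈ convLaurent :=
    convLaurent.mul_mem (convLaurent.pow_mem (qExpand_mem_convLaurent _ EisSer_mem) 2)
      (qExpand_mem_convLaurent _ DeltaInvSer_mem)
  cases i with
  | none =>
    exact convLaurent.mul_mem (convLaurent.mul_mem (single_mem_convLaurent 0 _)
      (qExpand_mem_convLaurent _ EisSer_mem)) h0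
  | some b =>
    exact convLaurent.mul_mem (twist_mem_convLaurent _ (norm_uc_pow p _) EisSer_mem) h0

theorem efam_mem (i : Option (ZMod p)) : efam p (Rz p) (zu p) i ∈ Bz p := by
  show coeffMap (phi p) (efam p (Rz p) (zu p) i) ∈ convLaurent
  rw [coeffMap_efam]
  exact efam_mem_conv p i

def eB (i : Option (ZMod p)) : Bz p := ⟨_, efam_mem p i⟩

theorem Et_eB (i : Option (ZMod p)) (τ : ℍ) : Et p τ (eB p i) =
    wt4 p i * ModularForm.E₄ (pt p i τ) * (ModularForm.E₄ τ ^ 2 *
      (ModularForm.discriminant τ)⁻¹) := by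
  rw [Et_apply]
  show evf (coeffMap (phi p) (efam p (Rz p) (zu p) i)) _ = _
  rw [coeffMap_efam]
  have hq := pdisc_q (pdiv p 0 τ)
  have hE : ConvAt (qExpand ℂ p (EisSer ℂ)) (Function.Periodic.qParam 1 (pdiv p 0 τ)) :=
    qExpand_mem_convLaurent _ EisSer_mem _ hq
  have hE2 : ConvAt (qExpand ℂ p (EisSer ℂ) ^ 2) (Function.Periodic.qParam 1 (pdiv p 0 τ)) :=
    convLaurent.pow_mem (qExpand_mem_convLaurent _ EisSer_mem) 2 _ hq
  have hD : ConvAt (qExpand ℂ p (DeltaInvSer ℂ)) (Function.Periodic.qParam 1 (pdiv p 0 τ)) :=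
    qExpand_mem_convLaurent _ DeltaInvSer_mem _ hq
  have hm0 : ConvAt (qExpand ℂ p (EisSer ℂ) ^ 2 * qExpand ℂ p (DeltaInvSer ℂ))
      (Function.Periodic.qParam 1 (pdiv p 0 τ)) :=
    convLaurent.mul_mem (convLaurent.pow_mem (qExpand_mem_convLaurent _ EisSer_mem) 2)
      (qExpand_mem_convLaurent _ DeltaInvSer_mem) _ hq
  have h0 : evf (qExpand ℂ p (EisSer ℂ) ^ 2 * qExpand ℂ p (DeltaInvSer ℂ))
      (Function.Periodic.qParam 1 (pdiv p 0 τ)) = ModularForm.E₄ τ ^ 2 *
      (ModularForm.discriminant τ)⁻¹ := by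
    rw [evf_mul hq.ne_zero hE2 hD, pow_two, evf_mul hq.ne_zero hE hE, evf_qExpand, evf_qExpand,
      q_pdiv_pow, evf_EisSer, evf_DeltaInvSer, pow_two]
  cases i with
  | none =>
    show evf (HahnSeries.C ((p : ℂ) ^ 4) * qExpand ℂ (p * p) (EisSer ℂ) *
      (qExpand ℂ p (EisSer ℂ) ^ 2 * qExpand ℂ p (DeltaInvSer ℂ))) _ = _
    rw [HahnSeries.C_apply, evf_mul hq.ne_zero
      (convLaurent.mul_mem (single_mem_convLaurent 0 _)
        (qExpand_mem_convLaurent _ EisSer_mem) _ hq) hm0,
      evf_mul hq.ne_zero (single_mem_convLaurent 0 _ _ hq)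
        (qExpand_mem_convLaurent _ EisSer_mem _ hq), evf_single, zpow_zero,
      mul_one, evf_qExpand, q_pdiv_pow_sq, evf_EisSer, h0]
    rfl
  | some b =>
    show evf (twist (uc p ^ b.val) (EisSer ℂ) *
      (qExpand ℂ p (EisSer ℂ) ^ 2 * qExpand ℂ p (DeltaInvSer ℂ))) _ = _
    rw [evf_mul hq.ne_zero
      (twist_mem_convLaurent _ (norm_uc_pow p _) EisSer_mem _ hq) hm0, evf_twist,
      Units.val_pow_eq_pow_val, coe_uc, ← q_pdiv, evf_EisSer, h0]
    simp only [wt4, one_mul]
    rfl

theorem Et_S_eB (i : Option (ZMod p)) (τ : ℍ) :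
    Et p (ModularGroup.S • τ) (eB p i) = Et p τ (eB p (sperm p i)) := by
  obtain ⟨γ, h1, h2⟩ := exists_gamma4 p i τ
  have hτ0 : (τ : ℂ) ≠ 0 := τ.ne_zero
  rw [Et_eB, Et_eB, h1, disc_smul, E4_smul, E4_smul, denom_S', ← mul_assoc (wt4 p i), h2]
  have e1 : (τ : ℂ) ^ (4 : ℤ) = (τ : ℂ) ^ 4 := by norm_cast
  have e2 : (τ : ℂ) ^ (12 : ℤ) = (τ : ℂ) ^ 12 := by norm_cast
  rw [e1, e2, mul_inv]
  have e3 : (τ : ℂ) ^ 12 * ((τ : ℂ) ^ 12)⁻¹ = 1 := mul_inv_cancel₀ (pow_ne_zero _ hτ0)
  linear_combination (wt4 p (sperm p i) * ModularForm.E₄ (pt p (sperm p i) τ) *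
    ModularForm.E₄ τ ^ 2 * (ModularForm.discriminant τ)⁻¹) * e3

theorem exists_We_aux : ∃ P : Polynomial (Polynomial (Rz p)),
    P.map ((qExpand (Rz p) p).comp (jev (Rz p))) =
      sumPoly (xfam p (Rz p) (zu p)) (efam p (Rz p) (zu p)) := by
  obtain ⟨P, hP⟩ := exists_lift_aux p (sumPoly (xB p) (eB p)) (by
      rw [map_sumPoly, map_sumPoly, ← sumPoly_perm (fun i => (Bz p).subtype (xB p i))
        (fun i => (Bz p).subtype (eB p i)) (tperm p)]
      congr 1
      · funext i
        exact twist_xfam p (zu p) (zu_pow p) i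
      · funext i
        exact twist_efam p (zu p) (zu_pow p) i) (fun τ => by
      rw [map_sumPoly, map_sumPoly, ← sumPoly_perm (fun i => Et p τ (xB p i))
        (fun i => Et p τ (eB p i)) (sperm p)]
      congr 1
      · funext i
        exact Et_S_xB p i τ
      · funext i
        exact Et_S_eB p i τ)
  refine ⟨P, ?_⟩
  rw [hP, map_sumPoly]
  rfl

section Field

variable {k : Type*} [Field k] (z : kˣ) (hz : IsPrimitiveRoot z p)

include hz in
theorem exists_We : ∃ P : Polynomial (Polynomial k),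
    P.map ((qExpand k p).comp (jev k)) = sumPoly (xfam p k z) (efam p k z) := by
  obtain ⟨P, hP⟩ := exists_We_aux p
  refine ⟨P.map (Polynomial.mapRingHom (liftz p (z : k) ((IsPrimitiveRoot.coe_units_iff).mpr hz))), ?_⟩
  rw [transport_aux, hP, map_sumPoly]
  congr 1
  · funext i
    rw [coeffMap_xfam, liftz_zu]
    exact hz
  · funext i
    rw [coeffMap_efam, liftz_zu]
    exact hz

variable (k) in
/-- `p⁴ E₄(q^p) E₄(q)²/Δ(q)` -/
def eSer : LaurentSeries k :=
  HahnSeries.C ((p : k) ^ 4) * qExpand k p (EisSer k) * (EisSer k ^ 2 * DeltaInvSer k)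

theorem efam_none : efam p k z none = qExpand k p (eSer p k) := by
  rw [eSer, map_mul, map_mul, map_mul, qExpand_C, map_pow (qExpand k p) (EisSer k) 2,
    qExpand_qExpand]
  rfl

theorem eSer_cube : eSer p k ^ 3 = Jd k p * jqModC k ^ 2 * uSer p k := by
  have h1 := EisSer_cube k
  have h2 : qExpand k p (EisSer k) ^ 3 = Jd k p * qExpand k p (DeltaSer k) := by
    rw [← map_pow, h1, map_mul, Jd_eq]
  have h3 := DeltaSer_mul_inv k
  rw [eSer, uSer]
  calc _ = HahnSeries.C ((p : k) ^ 4) ^ 3 * (qExpand k p (EisSer k) ^ 3) *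
        ((EisSer k ^ 3) ^ 2 * DeltaInvSer k ^ 3) := by ring
    _ = HahnSeries.C ((p : k) ^ 4) ^ 3 * (Jd k p * qExpand k p (DeltaSer k)) *
        (jqModC k ^ 2 * (DeltaSer k * DeltaInvSer k) ^ 2 * DeltaInvSer k) := by rw [h1, h2]; ring
    _ = _ := by
        rw [h3, ← map_pow, ← pow_mul]
        ring

include hz in
theorem eSer_mem (K : IntermediateField k (LaurentSeries k)) (hK : jqModC k ∈ K)
    (hp : Jd k p ∈ K) : eSer p k ∈ K := by
  obtain ⟨Φ, hΦ⟩ := exists_Phi p z hz
  obtain ⟨W, hW⟩ := exists_We p z hz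
  have hx : qExpand k p (Jd k p) = xfam p k z none := by
    rw [qExpand_Jd, xfam_none]
  have hw : qExpand k p (W.eval₂ (jev k) (Jd k p)) =
      efam p k z none * ∏ i ∈ Finset.univ.erase none, (xfam p k z none - xfam p k z i) := by
    rw [qExpand_eval₂, hW, hx, sumPoly_eval]
  have hv : qExpand k p ((Polynomial.derivative Φ).eval₂ (jev k) (Jd k p)) =
      ∏ i ∈ Finset.univ.erase none, (xfam p k z none - xfam p k z i) := by
    rw [qExpand_eval₂, ← Polynomial.derivative_map, hΦ, hx, derivative_prodPoly, sumPoly_eval,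
      one_mul]
  have hv0 : (Polynomial.derivative Φ).eval₂ (jev k) (Jd k p) ≠ 0 := by
    intro h
    rw [h, map_zero] at hv
    have := hv.symm
    rw [Finset.prod_eq_zero_iff] at this
    obtain ⟨i, hi, h0⟩ := this
    rw [sub_eq_zero] at h0
    exact (Finset.ne_of_mem_erase hi) (xfam_injective p z hz h0).symm
  have huv : W.eval₂ (jev k) (Jd k p) =
      eSer p k * (Polynomial.derivative Φ).eval₂ (jev k) (Jd k p) := by
    apply qExpand_injective p
    rw [map_mul, hw, hv, efam_none]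
  have : eSer p k = W.eval₂ (jev k) (Jd k p) / (Polynomial.derivative Φ).eval₂ (jev k) (Jd k p) := by
    rw [huv, mul_div_cancel_right₀ _ hv0]
  rw [this]
  exact div_mem (eval₂_jev_mem K hK hp _) (eval₂_jev_mem K hK hp _)

end Field

end Fermat.Agent.ModFun
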