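import Fermat.Agent.MazurP3.Toric
import Fermat.Agent.MazurP.Final
import Fermat.Agent.RT.MazSt

/-!
# Mazur's principle for odd `p`
-/

set_option autoImplicit false
set_option linter.unusedSectionVars false
set_option linter.style.haveILetI false
set_option linter.unusedVariables false
set_option synthInstance.maxHeartbeats 400000

noncomputable section

namespace Fermat.Agent.MazurP3

open ModularCurve Fermat.Agent.GoodRed Fermat.Agent.Models Fermat.Agent.ModFun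
open Fermat.Agent.Curves AlgebraicCurve Fermat.Agent.SSMod
open Fermat.Agent.HeckeQ Fermat.Agent.MazurP
open Fermat.Agent.AnJac Fermat.Agent.GalRep Fermat.Agent.S43Glue CuspForm Matrix

local notation "ℒ" => LaurentSeries
local notation "Qbar" => AlgebraicClosure ℚ
local notation "GQ" => Qbar ≃ₐ[ℚ] Qbar

section Data

variable {q M p : ℕ} [NeZero q] [NeZero M] [NeZero (q * M)]
  [hp : Fact p.Prime] {S : Set ℕ}
  {hSN : ∀ i : JS S, ¬ i.1 ∣ q * M} {θ : heckeAlgebra (q * M) 2 S →+* ZMod p}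

attribute [-instance] DivisionRing.toRatAlgebra in
/-- the hypotheses of `toric_all_odd` for classes in the eigenspace -/
theorem toricData6 {A : ValuationSubring Qbar} {x : Fin (rk (q * M)) → ZMod p}
    (hx : x ∈ WW hSN θ)
    (hin : ∀ τ ∈ A.inertiaSubgroupIn ℚ, (KQ (q * M)).M (bL (q * M)) (pne p) τ *ᵥ x = x)
    (heis : ∃ (r : ℕ) (hr : r.Prime) (hrS : r ∉ S), ¬ r ∣ 6 ∧
      θ (hkA (q * M) hSN (FreeAlgebra.ι ℤ ⟨r, hr, hrS⟩)) ≠ 1 + (r : ZMod p))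
    {P : FreeAlgebra ℤ (JS S)} (hP : lat M P = 0) (hP1 : θ (hkA (q * M) hSN P) = 1)
    {u : (ℒ Qbar)ˣ} {φ : Lat (q * M)} (hu : ClU (q * M) ιQ p φ u)
    (hφ : KSys.red (bL (q * M)) p φ = x) :
    ToricData6 A S q M p u := by
  obtain ⟨hm, hcl⟩ := hu
  have hC : (KQ (q * M)).Cls (bL (q * M)) p ⟨u, hm⟩ x := ⟨φ, hcl, hφ⟩
  refine ⟨hm, fun v => ClX.dvd_ord ιQ hcl v, fun τ hτ => ?_, ?_, ?_⟩
  · have h1 := hC.act (pne p) τ
    rw [hin τ hτ] at h1
    obtain ⟨g, -, hg⟩ := h1.exists_pow (pne p) hC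
    exact ⟨g, g.2, congrArg Subtype.val hg⟩
  · obtain ⟨r, hr, hrS, hr2, hne⟩ := heis
    haveI : NeZero r := ⟨hr.ne_zero⟩
    haveI : Fact r.Prime := ⟨hr⟩
    haveI : HasPrim Qbar r := hasPrim_K
    haveI : NeZero p := ⟨pne p⟩
    set a : ZMod p := θ (hkA (q * M) hSN (FreeAlgebra.ι ℤ ⟨r, hr, hrS⟩)) with ha
    have h1 := isMat_HV hSN ⟨r, hr, hrS⟩ _ _ hC
    rw [hx ⟨r, hr, hrS⟩, ← ha] at h1
    have h2 := hC.npow (pne p) a.val
    have h3 : a.val • x = a • x := by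
      ext i
      rw [Pi.smul_apply, Pi.smul_apply, nsmul_eq_mul, ZMod.natCast_zmod_val, smul_eq_mul]
    rw [h3] at h2
    obtain ⟨g, hg0, hg⟩ := h1.exists_pow (pne p) h2
    refine ⟨r, hr, a.val, g, ?_, ?_, g.2, fun h => hg0 (Subtype.ext h),
      congrArg Subtype.val hg⟩
    · intro h
      rcases hr.dvd_mul.mp h with h | h
      · exact hr2 h
      · exact hSN ⟨r, hr, hrS⟩ h
    · intro h
      apply hne
      have h4 : (((r + 1 : ℤ) - (a.val : ℤ) : ℤ) : ZMod p) = 0 :=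
        (ZMod.intCast_zmod_eq_zero_iff_dvd _ _).mpr h
      push_cast at h4
      rw [ZMod.natCast_zmod_val] at h4
      linear_combination -h4
  · have h1 := cl_op hasPrim_field hSN ιQ (pne p) P ⟨hm, hcl⟩
    obtain ⟨hm', hcl'⟩ := h1
    have h2 : (KQ (q * M)).Cls (bL (q * M)) p ⟨(op hasPrim_field P u : ℒ Qbar), hm'⟩ x := by
      refine ⟨_, hcl', ?_⟩
      rw [← HV_mulVec, hφ, WW_all hx, hP1, one_smul]
    obtain ⟨g, hg0, hg⟩ := h2.exists_pow (pne p) hC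
    have hg0' : (g : ℒ Qbar) ≠ 0 := fun h => hg0 (Subtype.ext h)
    refine ⟨P, Units.mk0 (g : ℒ Qbar) hg0', hP, g.2, Units.ext ?_⟩
    rw [Units.val_mul, Units.val_pow_eq_pow_val, Units.val_mk0]
    exact congrArg Subtype.val hg

end Data

section Main

theorem mazur_aux_odd {p : ℕ} [hp : Fact p.Prime] (hp2 : p ≠ 2) {q M : ℕ} [NeZero M]
    [NeZero (q * M)] {S : Set ℕ} {ρ : GQ →* Matrix (Fin 2) (Fin 2) (ZMod p)}
    (h3M : p ≠ 3 ∨ ∃ r : ℕ, r.Prime ∧ r % 3 = 2 ∧ r ∣ M)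
    (hq : q.Prime) (hqM : ¬ q ∣ M) (hqp : q ≠ p) (hS : S.Finite) (hpS : p ∈ S)
    (hMS : ∀ r : ℕ, r.Prime → r ∣ q * M → r ∈ S) (hρ : FinLevel ρ)
    (hdet : ∀ g, (ρ g).det = chiK p (ZMod p) g)
    (hspan : Submodule.span (ZMod p) (Set.range ρ) = ⊤)
    (hin : ∀ A : ValuationSubring Qbar, A.LiesOverPrime q → ∀ σ ∈ A.inertiaSubgroupIn ℚ, ρ σ = 1)
    (hmod : HMod ρ (q * M) S) (hlow : ¬ HMod ρ M S) {A : ValuationSubring Qbar}
    (hA : A.LiesOverPrime q) {τ : GQ} (hτ : A.IsFrobeniusAt τ q) :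
    (q : ZMod p) = 1 ∧ (ρ τ = 1 ∨ ρ τ = -1) := by
  haveI : Fact q.Prime := ⟨hq⟩
  haveI : NeZero q := ⟨hq.ne_zero⟩
  have hSN : ∀ i : JS S, ¬ i.1 ∣ q * M := fun i h => i.2.2 (hMS i.1 i.2.1 h)
  have hcop : Nat.Coprime q M := (Nat.Prime.coprime_iff_not_dvd hq).mpr hqM
  have hqS : q ∈ S := hMS q hq (dvd_mul_right q M)
  have h2 : (2 : ZMod p) ≠ 0 := by
    intro h
    have h1 : ((2 : ℕ) : ZMod p) = 0 := by exact_mod_cast h
    rw [ZMod.natCast_eq_zero_iff] at h1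
    exact hp2 ((Nat.prime_dvd_prime_iff_eq hp.out Nat.prime_two).1 h1)
  obtain ⟨θ, hθ⟩ := hmod
  obtain ⟨P, hP, hP1⟩ := exists_P hSN (fun r hr h => hMS r hr (h.mul_left q)) hθ hlow
  obtain ⟨Wm, hWm⟩ := AnJacH.exists_alMat (q := q) (M := M) hcop (pne p)
  haveI : Nontrivial (WW hSN θ) := WW_ne_bot hMS
  have hrel := TW_rel (hSN := hSN) (θ := θ) hρ hdet hS hpS hθ
  -- a prime which is not Eisenstein
  have heis : ∃ (r : ℕ) (hr : r.Prime) (hrS : r ∉ S), ¬ r ∣ 6 ∧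
      θ (hkA (q * M) hSN (FreeAlgebra.ι ℤ ⟨r, hr, hrS⟩)) ≠ 1 + (r : ZMod p) := by
    obtain ⟨r, hr, hrS, B, hB, σ, hσ, hne⟩ := exists_prime_not_eis (p := p) hp2 hρ hdet hspan
      (S := insert 2 (insert 3 S)) ((hS.insert 3).insert 2)
      (Set.mem_insert_of_mem 2 (Set.mem_insert_of_mem 3 hpS))
    have hr6 : ¬ r ∣ 6 := by
      intro h
      have h6 : r ∣ 2 * 3 := h
      rcases hr.dvd_mul.mp h6 with h7 | h7
      · have := (Nat.prime_dvd_prime_iff_eq hr Nat.prime_two).1 h7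
        exact hrS (this ▸ Set.mem_insert _ _)
      · have := (Nat.prime_dvd_prime_iff_eq hr Nat.prime_three).1 h7
        exact hrS (this ▸ Set.mem_insert_of_mem 2 (Set.mem_insert _ _))
    have hrS' : r ∉ S := fun h => hrS (Set.mem_insert_of_mem 2 (Set.mem_insert_of_mem 3 h))
    refine ⟨r, hr, hrS', hr6, ?_⟩
    rw [hkA_ι, ← hθ r hr _ hrS' B hB σ hσ]
    exact hne
  have hinW : ∀ σ ∈ A.inertiaSubgroupIn ℚ, ∀ x ∈ WW hSN θ,
      (KQ (q * M)).M (bL (q * M)) (pne p) σ *ᵥ x = x := by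
    intro σ hσ x hx
    have h3 := act_eq_self h2 hspan (chiK p (ZMod p)) hrel (hin A hA σ hσ) ⟨x, hx⟩
    have h4 := congrArg Subtype.val h3
    rw [coe_TW] at h4
    exact h4
  have hchi : chiK p (ZMod p) τ = (q : ZMod p) := chiK_frob p (ZMod p) hq hA hqp hτ
  have hΦ : ∀ x : WW hSN θ, TW hSN θ τ (wL hcop hWm x) = -(chiK p (ZMod p) τ • x) := by
    intro x
    obtain ⟨u, φ, hu, hφ⟩ := (KQ (q * M)).exists_cls (bL (q * M)) (pne p)
      (x : Fin (rk (q * M)) → ZMod p)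
    have hu0 : (u : ℒ Qbar) ≠ 0 := fun h => (KQ (q * M)).ne_zero hu (Subtype.ext h)
    have hclu : ClU (q * M) ιQ p φ (Units.mk0 (u : ℒ Qbar) hu0) := ⟨u.2, hu⟩
    have H := toricData6 (A := A) x.2 (fun σ hσ => hinW σ hσ _ x.2) heis hP hP1 hclu hφ
    obtain ⟨g, hg, e⟩ := toric_all_odd hq hA hcop hτ hp.out hp2 h3M hqp.symm hqS hSN H
    have hC : (KQ (q * M)).Cls (bL (q * M)) p u (x : Fin (rk (q * M)) → ZMod p) := ⟨φ, hu, hφ⟩
    have h5 := ((hWm u _ hC).act (pne p) τ).mul (hC.npow (pne p) q)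
    have h6 : (KQ (q * M)).act τ (al ιQ hcop u) * u ^ q = ⟨g, hg⟩ ^ p := by
      apply Subtype.ext
      rw [SubmonoidClass.coe_pow]
      exact e
    rw [h6] at h5
    have hg0 : (⟨g, hg⟩ : modularFunctionFieldFullC Qbar (q * M)) ≠ 0 := by
      intro h
      rw [h, zero_pow (pne p)] at h5
      exact h5.ne_zero rfl
    have h7 := h5.unique (pne p) (KSys.cls_pow (pne p) hg0)
    rw [hchi]
    apply Subtype.ext
    rw [coe_TW, coe_wL]
    have h8 := eq_neg_of_add_eq_zero_left h7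
    rw [h8]
    show -(q • (x : Fin (rk (q * M)) → ZMod p)) = -((q : ZMod p) • (x : Fin (rk (q * M)) → ZMod p))
    congr 1
    ext i
    rw [Pi.smul_apply, Pi.smul_apply, nsmul_eq_mul, smul_eq_mul]
  have := mazur_abstract h2 hspan (chiK p (ZMod p)) hdet hrel (wL hcop hWm) (wL_wL hcop hWm)
    (fun g x => wL_TW hcop hWm g x) τ hΦ
  rwa [hchi] at this

/-- **Mazur's principle** -/
theorem mazurPrinciple_odd : Fermat.Agent.RT.MazSt := by
  intro p hp hp2 M q _ _ S ρ h3M hq hqM hqp hS hpS hMS hρ hdet hspan hin hmod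
  by_cases hlow : HMod ρ M S
  · exact Or.inl hlow
  right
  haveI : NeZero (q * M) := ⟨Nat.mul_ne_zero hq.ne_zero (NeZero.ne M)⟩
  have hmod' : HMod ρ (q * M) S := by
    have key : ∀ (N N' : ℕ) [NeZero N] [NeZero N'], N = N' → HMod ρ N S → HMod ρ N' S := by
      intro N N' _ _ h
      subst h
      exact id
    exact key _ _ (mul_comm M q) hmod
  have hMS' : ∀ r : ℕ, r.Prime → r ∣ q * M → r ∈ S := by
    intro r hr h
    rw [mul_comm] at h
    exact hMS r hr h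
  have key : ∀ A : ValuationSubring Qbar, A.LiesOverPrime q → ∀ τ : GQ, A.IsFrobeniusAt τ q →
      (q : ZMod p) = 1 ∧ (ρ τ = 1 ∨ ρ τ = -1) := fun A hA τ hτ =>
    mazur_aux_odd hp2 h3M hq hqM hqp hS hpS hMS' hρ hdet hspan hin hmod' hlow hA hτ
  refine ⟨?_, fun A hA τ hτ => (key A hA τ hτ).2⟩
  obtain ⟨A, hA, τ, hτ⟩ := Frob.exists_place_frobenius hq
  have h1 := (key A hA τ hτ).1
  have h2 : ((q : ℕ) : ZMod p) = ((1 : ℕ) : ZMod p) := by rw [h1, Nat.cast_one]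
  rw [ZMod.natCast_eq_natCast_iff] at h2
  exact (Nat.modEq_iff_dvd' hq.one_le).mp h2.symm

end Main

end Fermat.Agent.MazurP3
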